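import Fermat.Agent.EffectiveBinaryForms.Field
import Fermat.Agent.BirchMerriman.Reduce
import Fermat.Agent.BakerExplicit.SUnitBound
import Fermat.Agent.BakerExplicit.ThueSizes

/-!
# Cross ratios of forms of given discriminant, effectively

For a cross ratio `R` the numbers `D R`, `D (1 - R)`, `-D` are algebraic integers with norms
dividing powers of `D` and sum zero, so Győry's effective `S`-unit theorem bounds `R`.
-/

set_option autoImplicit false
set_option linter.style.haveILetI false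

noncomputable section

namespace FA.EffectiveBinaryForms

open BirchMerriman Polynomial Finset NumberField IsDedekindDomain Module
open BakerExplicit BakerExplicit.EffectiveSUnits

variable {n : ℕ}

/-- The logarithm, to base `2`, of the discriminant of the field of all roots. -/
def fieldExp (n e : ℕ) : ℕ := (n.factorial + e) * n.factorial

/-- The logarithm, to base `2`, of a cross ratio. -/
def crossExp (n e : ℕ) : ℕ := n.factorial * sUnitBound n.factorial (fieldExp n e) e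

variable {K : Type*} [Field K] [NumberField K]

/-- A divisor of a power of `D` has smooth norm. -/
theorem smooth_norm {D : ℤ} {e : ℕ} (hD : D ≠ 0) (he : D.natAbs ≤ 2 ^ e) {a b : 𝓞 K} {t : ℕ}
    (h : a * b = (D : 𝓞 K) ^ t) : Smooth e (Algebra.norm ℤ a).natAbs := fun r hr hdvd => by
  have h1 : Algebra.norm ℤ a ∣ (D ^ finrank ℚ K) ^ t := by
    rw [← RingOfIntegers.rank K, ← Algebra.norm_algebraMap (S := 𝓞 K) D, eq_intCast, ← map_pow,
      ← h, map_mul]
    exact dvd_mul_right _ _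
  have h2 := hdvd.trans (Int.natAbs_dvd_natAbs.2 h1)
  rw [← pow_mul, Int.natAbs_pow] at h2
  exact (Nat.le_of_dvd (Int.natAbs_pos.2 hD) (hr.dvd_of_dvd_pow h2)).trans he

/-- Bounded numerators over bounded non-zero integral denominators. -/
theorem norm_le_mul {d B : ℕ} (hd : finrank ℚ K ≤ d) {a c : 𝓞 K} (hc : c ≠ 0)
    (ha : ∀ σ : K →+* ℂ, ‖σ (a : K)‖ ≤ (2 : ℝ) ^ B)
    (hcB : ∀ σ : K →+* ℂ, ‖σ (c : K)‖ ≤ (2 : ℝ) ^ B) (σ : K →+* ℂ) :
    ‖σ (a : K)‖ ≤ (2 : ℝ) ^ (d * B) * ‖σ (c : K)‖ := by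
  classical
  have h1 := EffectiveThue.prod_norm_eq (β := (c : K)) (Algebra.coe_norm_int c).symm
  have h2 : (1 : ℝ) ≤ ∏ τ : K →+* ℂ, ‖τ (c : K)‖ := by
    rw [h1, ← Int.cast_abs]
    exact_mod_cast Int.one_le_abs (Algebra.norm_ne_zero_iff.2 hc)
  rw [← mul_prod_erase univ _ (mem_univ σ)] at h2
  have h3 : ∏ τ ∈ univ.erase σ, ‖τ (c : K)‖ ≤ ((2 : ℝ) ^ B) ^ (finrank ℚ K - 1) := by
    refine (prod_le_prod (fun τ _ => norm_nonneg _) fun τ _ => hcB τ).trans (le_of_eq ?_)
    rw [prod_const, card_erase_of_mem (mem_univ _), card_univ, Embeddings.card]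
  have hpos : 0 < finrank ℚ K := finrank_pos
  calc ‖σ (a : K)‖ ≤ (2 : ℝ) ^ B * 1 := (mul_one ((2 : ℝ) ^ B)).symm ▸ ha σ
    _ ≤ (2 : ℝ) ^ B * (‖σ (c : K)‖ * ((2 : ℝ) ^ B) ^ (finrank ℚ K - 1)) :=
      mul_le_mul_of_nonneg_left
        (h2.trans (mul_le_mul_of_nonneg_left h3 (norm_nonneg _))) (by positivity)
    _ = ((2 : ℝ) ^ B) ^ finrank ℚ K * ‖σ (c : K)‖ := by
      rw [show finrank ℚ K = finrank ℚ K - 1 + 1 by omega, pow_succ]
      simp only [Nat.add_sub_cancel]
      ring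
    _ ≤ _ := mul_le_mul_of_nonneg_right (by
      rw [← pow_mul, mul_comm B]
      exact pow_le_pow_right₀ one_le_two (Nat.mul_le_mul_right _ hd)) (norm_nonneg _)

/-- The discriminant times a cross ratio as an algebraic integer with smooth norm. -/
theorem exists_scaled_ratio {g : ℤ[X]} {l : Fin n → K × K} (hl : Splitting g l)
    (hd : g.natDegree = n) (hn : 0 < n) (h0 : g.discr ≠ 0) {e : ℕ} (he : g.discr.natAbs ≤ 2 ^ e)
    {i j k m : Fin n} (hij : i ≠ j) (hik : i ≠ k) (hjm : j ≠ m) (hkm : k ≠ m) :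
    ∃ A : 𝓞 K, (A : K) = crossProd l * ratio l i j k m ∧ A ≠ 0 ∧
      Smooth e (Algebra.norm ℤ A).natAbs := by
  set D := discrSign n * g.discr with hD
  have hD0 : D ≠ 0 := mul_ne_zero (discrSign_ne_zero n) h0
  have hc := hl.crossProd_eq hd hn
  rw [← hD] at hc
  have hc0 : crossProd l ≠ 0 := hc ▸ Int.cast_ne_zero.2 hD0
  have hint : ∀ {i j k m : Fin n}, i ≠ j → i ≠ k → j ≠ m →
      ∃ A : 𝓞 K, (A : K) = crossProd l * ratio l i j k m := fun h1 h2 h3 =>
    exists_integer fun v => abv_crossProd_mul_ratio_le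
      (HeightOneSpectrum.isNonarchimedean_adicAbv K v) hl hc0 h1 h2 h3
  obtain ⟨A, hA⟩ := hint hij hik hjm
  obtain ⟨A', hA'⟩ := hint hik hij hkm
  have hprod : A * A' = (D : 𝓞 K) ^ 2 := by
    refine RingOfIntegers.ext ?_
    simp only [map_mul, map_pow, map_intCast, hA, hA', ← hc]
    linear_combination crossProd l ^ 2 * ratio_mul_ratio hc0 hij hik hjm hkm
  refine ⟨A, hA, fun h => ?_, smooth_norm hD0 ?_ hprod⟩
  · rw [h, zero_mul, eq_comm] at hprod
    exact hD0 (Int.cast_eq_zero.1 (pow_eq_zero_iff (two_ne_zero) |>.1 hprod))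
  · rwa [hD, Int.natAbs_mul, natAbs_discrSign, one_mul]

/-- **A cross ratio is effectively bounded.** -/
theorem norm_ratio_le {g : ℤ[X]} {l : Fin n → K × K} (hl : Splitting g l)
    (hd : g.natDegree = n) (hn : 0 < n) (h0 : g.discr ≠ 0) {e : ℕ} (he : g.discr.natAbs ≤ 2 ^ e)
    (hdeg : finrank ℚ K ≤ n.factorial) (hdisc : (discr K).natAbs ≤ 2 ^ fieldExp n e)
    {i j k m : Fin n} (hij : i ≠ j) (hik : i ≠ k) (him : i ≠ m) (hjk : j ≠ k) (hjm : j ≠ m)
    (hkm : k ≠ m) (σ : K →+* ℂ) : ‖σ (ratio l i j k m)‖ ≤ (2 : ℝ) ^ crossExp n e := by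
  set D := discrSign n * g.discr with hD
  have hD0 : D ≠ 0 := mul_ne_zero (discrSign_ne_zero n) h0
  have hc := hl.crossProd_eq hd hn
  rw [← hD] at hc
  have hc0 : crossProd l ≠ 0 := hc ▸ Int.cast_ne_zero.2 hD0
  obtain ⟨A, hA, hA0, hAs⟩ := exists_scaled_ratio hl hd hn h0 he hij hik hjm hkm
  obtain ⟨B, hB, hB0, hBs⟩ := exists_scaled_ratio hl hd hn h0 he him hik hjm.symm hjk.symm
  have hCs : Smooth e (Algebra.norm ℤ (-(D : 𝓞 K))).natAbs := by
    refine smooth_norm hD0 (b := -1) (t := 1) ?_ (by ring)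
    rwa [hD, Int.natAbs_mul, natAbs_discrSign, one_mul]
  have hsum : A + B + -(D : 𝓞 K) = 0 := by
    refine RingOfIntegers.ext ?_
    simp only [map_add, map_neg, map_intCast, map_zero, hA, hB, ← hc]
    linear_combination crossProd l * ratio_add_ratio (i := i) (j := j) (k := k) (m := m) hc0 hik hjm
  obtain ⟨μ, a', b', c', hμ, ea, -, ec, hbd⟩ := sUnit_equation_bound hdeg hdisc hA0 hB0
    (neg_ne_zero.2 (Int.cast_ne_zero.2 hD0)) hsum hAs hBs hCs
  simp only [map_neg, map_intCast, ← hc] at ec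
  have hc'0 : c' ≠ 0 := fun h => hc0 (by simpa [h] using ec)
  have hR : ratio l i j k m = -(a' : K) / c' := by
    rw [eq_div_iff (RingOfIntegers.coe_ne_zero_iff.2 hc'0)]
    refine mul_left_cancel₀ hc0 (mul_left_cancel₀ hμ ?_)
    rw [hA] at ea
    linear_combination (μ * (c' : K)) * ea - (μ * (a' : K)) * ec
  rw [hR, map_div₀, map_neg, norm_div, norm_neg,
    div_le_iff₀ (norm_pos_iff.2 ((map_ne_zero σ).2 (RingOfIntegers.coe_ne_zero_iff.2 hc'0)))]
  exact norm_le_mul hdeg hc'0 (fun τ => (hbd τ).1) (fun τ => (hbd τ).2.2) σ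

/-- **The cross ratios are bounded by a closed expression.** -/
theorem exists_crossBounded_effective {g : ℤ[X]} (hd : g.natDegree = n) (hn : 0 < n)
    (h0 : g.discr ≠ 0) {e : ℕ} (he : g.discr.natAbs ≤ 2 ^ e) :
    ∃ l : Fin n → ℂ × ℂ, Splitting g l ∧ CrossBounded ((2 : ℝ) ^ crossExp n e) l := by
  obtain ⟨M, _, _, l, hl, hdeg, hdisc⟩ := exists_splitting_field hd hn h0
  have hdisc' : (discr M).natAbs ≤ 2 ^ fieldExp n e := by
    refine hdisc.trans ?_
    rw [fieldExp, pow_mul]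
    refine Nat.pow_le_pow_left ?_ _
    rw [pow_add]
    exact Nat.mul_le_mul Nat.lt_two_pow_self.le he
  obtain ⟨σ⟩ : Nonempty (M →+* ℂ) := inferInstance
  refine ⟨fun i => (σ (l i).1, σ (l i).2), ?_, fun i j k m hij hik him hjk hjm hkm => ?_⟩
  · have h := congrArg (Polynomial.map σ) (hl : g.map (Int.castRingHom M) = _)
    rw [Polynomial.map_map, RingHom.ext_int (σ.comp (Int.castRingHom M)) (Int.castRingHom ℂ),
      Polynomial.map_prod] at h
    rw [Splitting, h]
    exact prod_congr rfl fun i _ => by simp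
  · have hc0 : crossProd l ≠ 0 := by
      rw [hl.crossProd_eq hd hn]
      exact Int.cast_ne_zero.2 (mul_ne_zero (discrSign_ne_zero n) h0)
    have e' : ∀ a b, cross ((σ (l a).1, σ (l a).2) : ℂ × ℂ) (σ (l b).1, σ (l b).2) =
        σ (cross (l a) (l b)) := fun a b => by simp [cross]
    have h1 := norm_ratio_le hl hd hn h0 he hdeg hdisc' hij hik him hjk hjm hkm σ
    simp only [e', ← norm_mul, ← map_mul]
    rw [ratio, map_div₀, norm_div, div_le_iff₀ (norm_pos_iff.2 ((map_ne_zero σ).2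
      (mul_ne_zero (cross_ne_zero_of_crossProd hc0 hik) (cross_ne_zero_of_crossProd hc0 hjm))))]
      at h1
    exact h1

end FA.EffectiveBinaryForms

end
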