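import Fermat.Agent.EffectiveBinaryForms.Places
import Fermat.Agent.BrauerSiegelDegree.NormalClosure

/-!
# The field of all roots of a binary form of given discriminant

An inertia element outside the discriminant moves each point of the projective line by less than
the distance of two roots, so fixes the roots: the splitting field has degree at most `n!` and
discriminant at most `(n! |D|) ^ n!`.
-/

set_option autoImplicit false
set_option linter.style.haveILetI false

noncomputable section

namespace FA.EffectiveBinaryForms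

open BirchMerriman Polynomial Finset NumberField IsDedekindDomain Module

variable {n : ℕ}

/-- Inertia outside the discriminant fixes the roots. -/
theorem inertia_fixes {M : Type*} [Field M] [NumberField M] {g : ℤ[X]} {l : Fin n → M × M}
    (hl : Splitting g l) (hd : g.natDegree = n) (v : HeightOneSpectrum (𝓞 M))
    (h1 : HeightOneSpectrum.adicAbv M v (crossProd l) = 1) (τ : M ≃ₐ[ℚ] M)
    (hτ : ∀ x : 𝓞 M, τ • x - x ∈ v.asIdeal) (i : Fin n) :
    τ (-(l i).2 / (l i).1) = -(l i).2 / (l i).1 := by
  classical
  set w := HeightOneSpectrum.adicAbv M v with hw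
  have hna : IsNonarchimedean w := HeightOneSpectrum.isNonarchimedean_adicAbv M v
  have hα : ∀ j, (l j).1 ≠ 0 := hl.fst_ne_zero hd
  set θ : Fin n → M := fun j => -(l j).2 / (l j).1 with hθ
  have hroot : aeval (θ i) g = 0 := by
    rw [aeval_def, ← eval_map, show g.map (algebraMap ℤ M) = _ from hl, eval_prod]
    refine prod_eq_zero (mem_univ i) ?_
    simp only [eval_add, eval_mul, eval_C, eval_X, θ]
    rw [mul_div_cancel₀ _ (hα i)]
    ring
  obtain ⟨s, hs⟩ : ∃ s, τ (θ i) = θ s := by
    have h : aeval (τ (θ i)) g = 0 := by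
      rw [← show τ.toAlgHom.toRingHom.toIntAlgHom (θ i) = τ (θ i) from rfl, aeval_algHom_apply,
        hroot, map_zero]
    rw [aeval_def, ← eval_map, show g.map (algebraMap ℤ M) = _ from hl, eval_prod,
      prod_eq_zero_iff] at h
    obtain ⟨s, -, hs⟩ := h
    refine ⟨s, ?_⟩
    simp only [eval_add, eval_mul, eval_C, eval_X] at hs
    rw [eq_div_iff (hα s)]
    linear_combination hs
  show τ (θ i) = θ i
  rcases eq_or_ne i s with h | hne
  · rw [hs, ← h]
  exfalso
  have hcross : w (cross (l i) (l s)) = size w (l i) * size w (l s) :=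
    abv_cross_eq hna hl h1 hne
  obtain ⟨c, x, y, hxy, hp⟩ := exists_coords v (l i)
  -- the image of `l i` is proportional to `l s`
  set μ : M := τ (l i).1 / (l s).1
  have hμ : (τ (l i).1, τ (l i).2) = μ • l s := by
    have h2 : τ (l i).2 = -(θ s * τ (l i).1) := by
      rw [← hs, ← map_mul, ← map_neg]
      congr 1
      simp only [θ]
      rw [div_mul_cancel₀ _ (hα i), neg_neg]
    refine Prod.ext (by simp [μ, div_mul_cancel₀ _ (hα s)]) ?_
    simp only [Prod.smul_snd, smul_eq_mul, μ, h2, θ]
    field_simp
  set x' : 𝓞 M := τ • x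
  set y' : 𝓞 M := τ • y
  have hx' : (x' : M) = τ (x : M) := algebraMap.coe_smul' τ x M
  have hy' : (y' : M) = τ (y : M) := algebraMap.coe_smul' τ y M
  have hτl : μ • l s = τ c • ((x' : M), (y' : M)) := by
    rw [← hμ, hp]
    simp [hx', hy']
  have hxy' : x' ∉ v.asIdeal ∨ y' ∉ v.asIdeal := hxy.imp
    (fun h e => h (by have h2 := v.asIdeal.sub_mem e (hτ x); rwa [sub_sub_cancel] at h2))
    (fun h e => h (by have h2 := v.asIdeal.sub_mem e (hτ y); rwa [sub_sub_cancel] at h2))
  have hc : c ≠ 0 := fun e => hα i (by rw [hp, e]; simp)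
  have hτc : w (τ c) ≠ 0 := (AbsoluteValue.ne_zero_iff w).2 ((map_ne_zero τ).2 hc)
  have hsmall : w (cross ((x : M), (y : M)) ((x' : M), (y' : M))) < 1 := by
    rw [show cross ((x : M), (y : M)) ((x' : M), (y' : M)) =
        ((x * (y' - y) - y * (x' - x) : 𝓞 M) : M) by simp only [cross, map_sub, map_mul]; ring,
      hw, ← FinitePlace.norm_embedding, FinitePlace.norm_lt_one_iff_mem]
    exact v.asIdeal.sub_mem (Ideal.mul_mem_left _ _ (hτ y)) (Ideal.mul_mem_left _ _ (hτ x))
  have e1 : μ * cross (l i) (l s) = c * τ c * cross ((x : M), (y : M)) ((x' : M), (y' : M)) := by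
    have h2 : cross (l i) (μ • l s) = μ * cross (l i) (l s) := by
      simp only [cross, Prod.smul_fst, Prod.smul_snd, smul_eq_mul]; ring
    rw [← h2, hτl, hp]
    simp only [cross, Prod.smul_fst, Prod.smul_snd, smul_eq_mul]
    ring
  have e2 : w μ * size w (l s) = w (τ c) := by
    rw [← size_smul, hτl, size_smul, size_coords hxy', mul_one]
  have e3 : size w (l i) = w c := by rw [hp, size_smul, size_coords hxy, mul_one]
  have e4 := congrArg w e1
  rw [map_mul, map_mul, map_mul, hcross, e3, mul_left_comm, e2] at e4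
  have hpos : 0 < w c * w (τ c) := mul_pos (w.pos hc) (lt_of_le_of_ne (w.nonneg _) hτc.symm)
  have h5 := mul_lt_mul_of_pos_left hsmall hpos
  rw [← e4, mul_one] at h5
  exact lt_irrefl _ h5

/-- **The field of all roots of a form**, not necessarily monic: degree at most `n!`, unramified
outside the discriminant. -/
theorem exists_splitting_field {g : ℤ[X]} (hd : g.natDegree = n) (hn : 0 < n)
    (h0 : g.discr ≠ 0) :
    ∃ (M : Type) (_ : Field M) (_ : NumberField M) (l : Fin n → M × M),
      Splitting g l ∧ finrank ℚ M ≤ n.factorial ∧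
        (discr M).natAbs ≤ (n.factorial * g.discr.natAbs) ^ n.factorial := by
  classical
  set p : ℚ[X] := g.map (Int.castRingHom ℚ) with hp
  let M := p.SplittingField
  haveI : NumberField M := NumberField.mk
  haveI : IsSplittingField ℚ M p := by
    convert IsSplittingField.splittingField p using 1
    exact Subsingleton.elim _ _
  have hpg : p.map (algebraMap ℚ M) = g.map (Int.castRingHom M) := by
    show (g.map (Int.castRingHom ℚ)).map (algebraMap ℚ M) = _
    rw [Polynomial.map_map]
    congr 1
  obtain ⟨l, hl⟩ := exists_splitting_of_splits (E := M) hd hn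
    (hpg ▸ IsSplittingField.splits M p)
  have hα := hl.fst_ne_zero hd
  have hD : crossProd l ≠ 0 := by
    rw [hl.crossProd_eq hd hn]
    exact Int.cast_ne_zero.2 (mul_ne_zero (discrSign_ne_zero n) h0)
  set θ : Fin n → M := fun j => -(l j).2 / (l j).1 with hθ
  have hθinj : Function.Injective θ := fun a b h => by
    by_contra hab
    refine cross_ne_zero_of_crossProd hD hab ?_
    simp only [θ] at h
    rw [div_eq_div_iff (hα a) (hα b)] at h
    simp only [cross]
    linear_combination h
  have hroots : (p.map (algebraMap ℚ M)).roots = univ.val.map θ := by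
    rw [hpg, show g.map (Int.castRingHom M) = _ from hl,
      prod_congr rfl fun j _ => show C (l j).1 * X + C (l j).2 = C (l j).1 * (X - C (θ j)) by
        rw [mul_sub, ← C_mul, mul_div_cancel₀ _ (hα j), C_neg, sub_neg_eq_add],
      prod_mul_distrib, ← map_prod, roots_C_mul _ (prod_ne_zero_iff.2 fun j _ => hα j),
      prod_eq_multiset_prod,
      show (univ.val.map fun i => X - C (θ i)) = (univ.val.map θ).map fun z => X - C z by
        rw [Multiset.map_map]; rfl, roots_multiset_prod_X_sub_C]
  have hgne : g ≠ 0 := fun h => by rw [h, natDegree_zero] at hd; omega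
  have hpne : p ≠ 0 := (Polynomial.map_ne_zero_iff Int.cast_injective).2 hgne
  have hsep : p.Separable := by
    rw [← separable_map (algebraMap ℚ M)]
    refine (nodup_roots_iff_of_splits ((Polynomial.map_ne_zero_iff
      (algebraMap ℚ M).injective).2 hpne) (IsSplittingField.splits M p)).1 ?_
    rw [hroots]
    exact univ.nodup.map hθinj
  haveI : IsGalois ℚ M := IsGalois.of_separable_splitting_field hsep
  haveI : Fact ((p.map (algebraMap ℚ M)).Splits) := ⟨IsSplittingField.splits M p⟩
  have hdeg : finrank ℚ M ≤ n.factorial := by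
    rw [← Polynomial.Gal.card_of_separable hsep]
    refine (Nat.card_le_card_of_injective _ (Polynomial.Gal.galActionHom_injective p M)).trans ?_
    rw [Nat.card_eq_fintype_card, Fintype.card_perm,
      card_rootSet_eq_natDegree hsep (IsSplittingField.splits M p), hp,
      natDegree_map_eq_of_injective Int.cast_injective, hd]
  refine ⟨M, inferInstance, inferInstance, l, hl, hdeg, ?_⟩
  have hDpos : 0 < g.discr.natAbs := Int.natAbs_pos.2 h0
  have hun : ∀ (q : ℕ) (P : Ideal (𝓞 M)) [P.IsMaximal], q.Prime →
      q ∉ g.discr.natAbs.primeFactors → (q : 𝓞 M) ∈ P → Algebra.IsUnramifiedAt ℤ P :=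
      fun q P _ hq hqd hqP => by
    refine FA.BSDegree.isUnramifiedAt_of_inertia hq P hqP fun τ hτ => ?_
    have hPbot : P ≠ ⊥ := fun h => by
      rw [h, Ideal.mem_bot, Nat.cast_eq_zero] at hqP
      exact hq.ne_zero hqP
    let v : HeightOneSpectrum (𝓞 M) := ⟨P, inferInstance, hPbot⟩
    have hdP : ((discrSign n * g.discr : ℤ) : 𝓞 M) ∉ v.asIdeal := fun hmem => by
      have hcop : IsCoprime (q : ℤ) (discrSign n * g.discr) := Int.isCoprime_iff_gcd_eq_one.2 (by
        rw [Int.gcd_eq_natAbs, Int.natAbs_natCast, Int.natAbs_mul, natAbs_discrSign, one_mul]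
        exact (Nat.Prime.coprime_iff_not_dvd hq).2 fun hdvd =>
          hqd (Nat.mem_primeFactors.2 ⟨hq, hdvd, hDpos.ne'⟩))
      obtain ⟨a, b, hab⟩ := hcop
      refine Ideal.IsMaximal.ne_top (inferInstance : P.IsMaximal) ((Ideal.eq_top_iff_one P).2 ?_)
      have h1 : ((a * q + b * (discrSign n * g.discr) : ℤ) : 𝓞 M) ∈ P := by
        rw [Int.cast_add, Int.cast_mul, Int.cast_mul b, Int.cast_natCast]
        exact P.add_mem (P.mul_mem_left _ hqP) (P.mul_mem_left _ hmem)
      simpa [hab] using h1
    have h1 : HeightOneSpectrum.adicAbv M v (crossProd l) = 1 := by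
      rw [hl.crossProd_eq hd hn, ← map_intCast (algebraMap (𝓞 M) M), ← FinitePlace.norm_embedding]
      exact (FinitePlace.norm_eq_one_iff_notMem M v _).2 hdP
    have hfix : ∀ r ∈ p.rootSet M, τ.toAlgHom r = (AlgHom.id ℚ M) r := fun r hr => by
      rw [rootSet, Finset.mem_coe, Multiset.mem_toFinset, aroots_def, hroots,
        Multiset.mem_map] at hr
      obtain ⟨j, -, rfl⟩ := hr
      exact inertia_fixes hl hd v h1 τ hτ j
    exact AlgEquiv.ext fun x =>
      DFunLike.congr_fun
        (AlgHom.ext_of_adjoin_eq_top (IsSplittingField.adjoin_rootSet M p) hfix) x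
  refine (FA.Faltings.natAbs_discr_le (K := M) (fun q hq => Nat.prime_of_mem_primeFactors hq)
    hun).trans ?_
  exact (Nat.pow_le_pow_left (Nat.mul_le_mul hdeg (Nat.le_of_dvd hDpos
    (Nat.prod_primeFactors_dvd _))) _).trans
      (Nat.pow_le_pow_right (Nat.mul_pos (Nat.factorial_pos n) hDpos) hdeg)

end FA.EffectiveBinaryForms

end
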