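import Fermat.Agent.BirchMerriman.Shift
import Fermat.Agent.BirchMerriman.Discriminant

/-!
# The discriminant of a form is an invariant

Equivalent forms have the same `formDiscr`, sign included, roots at infinity allowed.
-/

set_option autoImplicit false

noncomputable section

namespace FA.EffectiveBinaryForms

open BirchMerriman Polynomial Finset

variable {n : ℕ}

theorem slEquiv_symm {f g : ℤ[X]} (h : SLEquiv n f g) : SLEquiv n g f := by
  obtain ⟨a, b, c, d, hdet, e⟩ := h
  refine ⟨d, -b, -c, a, by linear_combination hdet, ?_⟩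
  rw [e, MvPolynomial.comp_aeval_apply]
  conv_lhs => rw [← MvPolynomial.aeval_X_left_apply (f.homogenize n)]
  congr 2
  funext i
  have hC : ((a : MvPolynomial (Fin 2) ℤ) * d - b * c) = 1 := by exact_mod_cast hdet
  fin_cases i <;> simp [eq_intCast] <;> linear_combination -(MvPolynomial.X _) * hC

theorem natDegree_le_of_formDiscr {f : ℤ[X]} (h0 : formDiscr n f ≠ 0) : f.natDegree ≤ n := by
  by_contra h
  rw [formDiscr, if_neg (by omega), if_neg (by omega)] at h0
  exact h0 rfl

/-- Nonzero discriminant allows at most one root at infinity. -/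
theorem le_natDegree_succ {f : ℤ[X]} {l : Fin n → ℂ × ℂ} (hl : Splitting f l)
    (h0 : crossProd l ≠ 0) : n ≤ f.natDegree + 1 := by
  classical
  rcases le_or_gt n 1 with hn | hn
  · omega
  have hz : ((univ : Finset (Fin n)).filter fun i => (l i).1 = 0).card ≤ 1 := by
    refine card_le_one.2 fun i hi j hj => by_contra fun hij => ?_
    rw [mem_filter] at hi hj
    exact cross_ne_zero_of_crossProd h0 hij (by simp [cross, hi.2, hj.2])
  have hne : ∀ i, C (l i).1 * X + C (l i).2 ≠ 0 := fun i h => by
    obtain ⟨j, hj⟩ := Fintype.exists_ne_of_one_lt_card (by rw [Fintype.card_fin]; omega) i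
    have h1 := congrArg (fun p => coeff p 1) h
    have h2 := congrArg (fun p => coeff p 0) h
    simp at h1 h2
    exact cross_ne_zero_of_crossProd h0 hj.symm (by simp [cross, h1, h2])
  have hd : f.natDegree = ∑ i, (C (l i).1 * X + C (l i).2).natDegree := by
    rw [← natDegree_prod _ _ fun i _ => hne i, ← show f.map (Int.castRingHom ℂ) = _ from hl,
      natDegree_map_eq_of_injective Int.cast_injective]
  have h1 : ((univ : Finset (Fin n)).filter fun i => ¬(l i).1 = 0).card ≤ f.natDegree := by
    rw [hd, card_eq_sum_ones]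
    exact (sum_le_sum (g := fun i => (C (l i).1 * X + C (l i).2).natDegree) fun i hi =>
      (natDegree_linear (mem_filter.1 hi).2).ge).trans (sum_le_sum_of_subset (filter_subset _ _))
  have := card_filter_add_card_filter_not (s := (univ : Finset (Fin n))) fun i => (l i).1 = 0
  rw [card_univ, Fintype.card_fin] at this
  omega

/-- A splitting with the discriminant as the product of the determinants, sign included. -/
theorem exists_splitting_formDiscr {f : ℤ[X]} (hn : 2 ≤ n) (hd : f.natDegree ≤ n)
    (hd' : n ≤ f.natDegree + 1) :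
    ∃ l : Fin n → ℂ × ℂ, Splitting f l ∧
      crossProd l = ((discrSign n * formDiscr n f : ℤ) : ℂ) := by
  rcases eq_or_ne f.natDegree n with h | h
  · obtain ⟨l, hl⟩ := exists_splitting (E := ℂ) h (by omega)
    exact ⟨l, hl, by rw [hl.crossProd_eq h (by omega), formDiscr, if_pos h]⟩
  obtain ⟨m, rfl⟩ : ∃ m, n = m + 1 := ⟨n - 1, by omega⟩
  have hm : f.natDegree = m := by omega
  obtain ⟨l, hl⟩ := exists_splitting (E := ℂ) hm (by omega)
  refine ⟨Fin.cons (0, 1) l, ?_, ?_⟩
  · rw [Splitting, show f.map (Int.castRingHom ℂ) = _ from hl, Fin.prod_univ_succ]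
    simp
  have hlc : (f.leadingCoeff : ℂ) = ∏ i, (l i).1 := by
    have h1 := congrArg Polynomial.leadingCoeff (hl : f.map (Int.castRingHom ℂ) = _)
    rw [leadingCoeff_map_of_injective Int.cast_injective, leadingCoeff_prod, eq_intCast] at h1
    rw [h1]
    exact prod_congr rfl fun i _ => leadingCoeff_linear (hl.fst_ne_zero hm i)
  have hsign : discrSign (m + 1) = (-1) ^ m * discrSign m := by
    rw [discrSign, discrSign, ← pow_add]
    congr 1
    obtain ⟨k, rfl⟩ : ∃ k, m = k + 1 := ⟨m - 1, by omega⟩
    simp only [Nat.add_sub_cancel]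
    rw [show (k + 1 + 1) * (k + 1) = (k + 1) * k + (k + 1) * 2 by ring,
      Nat.add_mul_div_right _ _ two_pos]
    omega
  rw [crossProd_cons, hl.crossProd_eq hm (by omega), formDiscr, if_neg h, if_pos (by omega), hsign]
  simp only [cross, zero_mul, zero_sub, mul_one, sub_zero]
  rw [prod_neg, card_univ, Fintype.card_fin, ← hlc]
  push_cast
  ring

/-- The discriminant is that of every equivalent form of full degree. -/
theorem formDiscr_eq_discr {f h : ℤ[X]} (hn : 2 ≤ n) (h0 : formDiscr n f ≠ 0)
    (hh : h.natDegree = n) (hfh : SLEquiv n f h) : formDiscr n f = h.discr := by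
  have hd := natDegree_le_of_formDiscr h0
  have hd' : n ≤ f.natDegree + 1 := by
    by_contra hlt
    rw [formDiscr, if_neg (by omega), if_neg (by omega)] at h0
    exact h0 rfl
  obtain ⟨l, hl, hc⟩ := exists_splitting_formDiscr hn hd hd'
  obtain ⟨a, b, c, d, hdet, hhom⟩ := hfh
  have hl' := hl.subst hh.le hhom
  have h1 := hl'.crossProd_eq hh (by omega)
  rw [show crossProd (substFactors l a b c d) = crossProd l by
    simp only [crossProd, cross_substFactors l hdet], hc, Int.cast_inj] at h1
  exact mul_left_cancel₀ (discrSign_ne_zero n) h1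

/-- **Equivalent forms have the same discriminant.** -/
theorem formDiscr_eq_of_equiv {f g : ℤ[X]} (hn : 2 ≤ n) (h0 : formDiscr n f ≠ 0)
    (hg : g.natDegree ≤ n) (hfg : SLEquiv n f g) : formDiscr n g = formDiscr n f := by
  have hd := natDegree_le_of_formDiscr h0
  obtain ⟨h, hh, hfh⟩ := exists_full_degree hd fun e => h0 (by
    subst e
    rw [formDiscr, if_neg (by simp; omega), if_neg (by simp; omega)])
  have e1 := formDiscr_eq_discr hn h0 hh hfh
  have hhg : SLEquiv n h g := (slEquiv_symm hfh).trans hfg
  obtain ⟨l, hl⟩ := exists_splitting (E := ℂ) hh (by omega)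
  obtain ⟨a, b, c, d, hdet, hhom⟩ := hhg
  have hl' := hl.subst hg hhom
  have hd' := le_natDegree_succ hl' (by
    rw [show crossProd (substFactors l a b c d) = crossProd l by
      simp only [crossProd, cross_substFactors l hdet], hl.crossProd_eq hh (by omega)]
    exact Int.cast_ne_zero.2 (mul_ne_zero (discrSign_ne_zero n) (e1 ▸ h0)))
  obtain ⟨m, hm, hc⟩ := exists_splitting_formDiscr hn hg hd'
  obtain ⟨a', b', c', d', hdet', hhom'⟩ :=
    slEquiv_symm (⟨a, b, c, d, hdet, hhom⟩ : SLEquiv n h g)
  have h1 := (hm.subst hh.le hhom').crossProd_eq hh (by omega)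
  rw [show crossProd (substFactors m a' b' c' d') = crossProd m by
    simp only [crossProd, cross_substFactors m hdet'], hc, Int.cast_inj] at h1
  rw [e1]
  exact mul_left_cancel₀ (discrSign_ne_zero n) h1

end FA.EffectiveBinaryForms

end
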