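import Fermat.Agent.EffectiveBinaryForms.CrossRatios
import Fermat.Agent.EffectiveBinaryForms.Invariance
import Fermat.Agent.BirchMerriman.Quadratic

/-!
# The effective Birch–Merriman theorem (Evertse–Győry)

Every integral binary form of degree `n` and discriminant `0 < |D| ≤ 2 ^ e` is equivalent under
`SL₂(ℤ)` to one with coefficients at most `2 ^ formBound n e`.
-/

set_option autoImplicit false

noncomputable section

namespace FA.EffectiveBinaryForms

open BirchMerriman Polynomial Finset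

/-- The logarithm, to base `2`, of the balancing constant. -/
def balanceExp (n e : ℕ) : ℕ := 2 * crossExp n e * (n * (n - 1)) + e

/-- The logarithm, to base `2`, of the coefficients of a reduced form. -/
def formBound (n e : ℕ) : ℕ := balanceExp n e + n * (9 * balanceExp n e + 2 * n + 3) + e

theorem reducedBound_le {n c e : ℕ} (hn : 2 ≤ n) :
    reducedBound n ((2 : ℝ) ^ c) ((2 : ℝ) ^ e) ≤ (2 : ℝ) ^ (2 * c * (n * (n - 1)) + e +
      n * (9 * (2 * c * (n * (n - 1)) + e) + 2 * n + 3)) := by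
  set k := 2 * c * (n * (n - 1)) + e with hk
  have h1 : (1 : ℝ) ≤ 2 ^ c := one_le_pow₀ one_le_two
  have hnn : 1 ≤ n * (n - 1) := Nat.mul_pos (by omega) (by omega)
  have hK : balanceConst n ((2 : ℝ) ^ c) ((2 : ℝ) ^ e) ≤ (2 : ℝ) ^ k := by
    rw [balanceConst, max_eq_right h1, ← pow_mul, ← pow_mul, ← pow_add, hk]
    refine max_le (pow_le_pow_right₀ one_le_two ?_) (pow_le_pow_right₀ one_le_two ?_)
    · have := Nat.le_mul_of_pos_right (2 * c) hnn
      omega
    · exact le_of_eq (by ring)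
  have hK1 := one_le_balanceConst n ((2 : ℝ) ^ c) ((2 : ℝ) ^ e)
  rw [reducedBound]
  set K := balanceConst n ((2 : ℝ) ^ c) ((2 : ℝ) ^ e)
  set E := max 1 (4 * (n : ℝ) ^ 2 * K ^ 8) with hE
  have hE1 : (1 : ℝ) ≤ E := le_max_left _ _
  have hsqrt : Real.sqrt (E ^ 2 * K ^ 2) = E * K := by
    rw [← mul_pow, Real.sqrt_sq (mul_nonneg (by linarith) (by linarith))]
  have hn2 : (n : ℝ) ≤ 2 ^ n := by exact_mod_cast Nat.lt_two_pow_self.le
  have hE2 : E ≤ (2 : ℝ) ^ (2 + 2 * n + 8 * k) := by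
    refine max_le (one_le_pow₀ one_le_two) ?_
    rw [pow_add, pow_add, mul_comm 2 n, pow_mul, mul_comm 8 k, pow_mul, show (4 : ℝ) = 2 ^ 2 by
      norm_num]
    gcongr
  rw [hsqrt, pow_add]
  refine mul_le_mul hK ?_ (by positivity) (by positivity)
  rw [mul_comm n, pow_mul]
  refine pow_le_pow_left₀ (by positivity) ?_ n
  calc 2 * (E * K) ≤ 2 * ((2 : ℝ) ^ (2 + 2 * n + 8 * k) * 2 ^ k) := by gcongr
    _ = _ := by rw [← pow_add, ← pow_succ']; congr 1; omega

/-- **The effective theorem of Birch and Merriman.** -/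
theorem exists_small_equiv {n e : ℕ} (hn : 2 ≤ n) {f : ℤ[X]} (h0 : formDiscr n f ≠ 0)
    (he : (formDiscr n f).natAbs ≤ 2 ^ e) :
    ∃ g : ℤ[X], g.natDegree ≤ n ∧ SLEquiv n f g ∧
      ∀ i, (g.coeff i).natAbs ≤ 2 ^ formBound n e := by
  obtain ⟨hf, l₀, hl₀, hld⟩ := exists_factors hn h0
  have hne : crossProd l₀ ≠ 0 := fun h => by
    rw [h, norm_zero, eq_comm, abs_eq_zero, Int.cast_eq_zero] at hld
    exact h0 hld
  obtain ⟨g, hgd, hfg, hg0, habs⟩ := exists_full hn hf hl₀ hne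
  have hge : g.discr.natAbs ≤ 2 ^ e := by
    rw [hld, ← Int.cast_abs, Int.abs_eq_natAbs, Int.cast_natCast, Nat.cast_inj] at habs
    rwa [habs]
  have fin : ∀ {h : ℤ[X]} {B : ℕ}, (∀ i, |(h.coeff i : ℝ)| ≤ (2 : ℝ) ^ B) → B ≤ formBound n e →
      ∀ i, (h.coeff i).natAbs ≤ 2 ^ formBound n e := fun {h B} hB hle i => by
    refine le_trans ?_ (Nat.pow_le_pow_right two_pos hle)
    have h1 := hB i
    rw [← Int.cast_abs, Int.abs_eq_natAbs, Int.cast_natCast] at h1
    exact_mod_cast h1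
  rcases eq_or_lt_of_le hn with h2 | h2
  · obtain ⟨g', hg', heq, hB⟩ := exists_reduced_quadratic (g := g) (h2 ▸ hgd) hg0 hge
    refine ⟨g', h2 ▸ hg', hfg.trans (h2 ▸ heq), fin (B := e) (fun i => ?_) ?_⟩
    · exact_mod_cast hB i
    · simp only [formBound]; omega
  obtain ⟨l, hl, hC⟩ := exists_crossBounded_effective hgd (by omega) hg0 hge
  have hnorm : ‖crossProd l‖ = (g.discr.natAbs : ℝ) := by
    rw [hl.crossProd_eq hgd (by omega), Complex.norm_intCast, ← Int.cast_abs, Int.abs_eq_natAbs,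
      Int.natAbs_mul, natAbs_discrSign, one_mul, Int.cast_natCast]
  obtain ⟨g', hg', heq, hB⟩ := exists_reduced (M := (2 : ℝ) ^ e) h2 (factors_of_map_eq_prod hl)
    (fun h => by
      rw [h, norm_zero, eq_comm, Nat.cast_eq_zero, Int.natAbs_eq_zero] at hnorm
      exact hg0 hnorm)
    (by rw [hnorm]; exact_mod_cast hge) hC
  refine ⟨g', hg', hfg.trans heq, fin (fun i => (hB i).trans (reducedBound_le hn)) ?_⟩
  simp only [formBound, balanceExp]
  omega

/-- **The discriminants of forms of degree `n`** are found by a finite search. -/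
theorem discriminant_iff_bounded {n e : ℕ} (hn : 2 ≤ n) {D : ℤ} (hD : D ≠ 0)
    (he : D.natAbs ≤ 2 ^ e) :
    (∃ f : ℤ[X], formDiscr n f = D) ↔ ∃ g : ℤ[X], g.natDegree ≤ n ∧
      (∀ i, (g.coeff i).natAbs ≤ 2 ^ formBound n e) ∧ formDiscr n g = D := by
  refine ⟨?_, fun ⟨g, _, _, hg⟩ => ⟨g, hg⟩⟩
  rintro ⟨f, rfl⟩
  obtain ⟨g, hg, hfg, hB⟩ := exists_small_equiv hn hD he
  exact ⟨g, hg, hB, formDiscr_eq_of_equiv hn hD hg hfg⟩

/-- **The number of classes.** -/
theorem card_classes_le {n e : ℕ} (hn : 2 ≤ n) :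
    ∃ P : Finset ℤ[X], P.card ≤ (2 ^ (formBound n e + 1) + 1) ^ (n + 1) ∧
      ∀ f : ℤ[X], formDiscr n f ≠ 0 → (formDiscr n f).natAbs ≤ 2 ^ e →
        ∃ g ∈ P, SLEquiv n f g := by
  classical
  set B : ℤ := (2 : ℤ) ^ formBound n e with hB
  refine ⟨(Fintype.piFinset fun _ : Fin (n + 1) => Finset.Icc (-B) B).image
    fun c => ∑ i : Fin (n + 1), C (c i) * X ^ (i : ℕ), ?_, fun f h0 he => ?_⟩
  · refine card_image_le.trans ?_
    rw [Fintype.card_piFinset, prod_const, card_univ, Fintype.card_fin, Int.card_Icc]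
    refine Nat.pow_le_pow_left ?_ _
    have h1 : ((2 ^ (formBound n e + 1) + 1 : ℕ) : ℤ) = B + 1 - -B := by
      push_cast
      rw [hB, pow_succ]
      ring
    rw [← h1, Int.toNat_natCast]
  obtain ⟨g, hg, hfg, hgB⟩ := exists_small_equiv hn h0 he
  refine ⟨g, mem_image.2 ⟨fun i => g.coeff i, Fintype.mem_piFinset.2 fun i => ?_, ?_⟩, hfg⟩
  · rw [Finset.mem_Icc, ← abs_le, Int.abs_eq_natAbs]
    calc ((g.coeff i).natAbs : ℤ) ≤ ((2 ^ formBound n e : ℕ) : ℤ) := by exact_mod_cast hgB i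
      _ = B := by rw [hB]; norm_num
  · conv_rhs => rw [g.as_sum_range_C_mul_X_pow' (n := n + 1) (by omega)]
    exact Fin.sum_univ_eq_sum_range (fun i => C (g.coeff i) * X ^ i) (n + 1)

end FA.EffectiveBinaryForms

end
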