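import Fermat.Agent.BirchMerriman.Shift
import Mathlib.RingTheory.Polynomial.GaussNorm
import Mathlib.NumberTheory.NumberField.Completion.FinitePlace

/-!
# Linear factors of an integral form at a finite place

With `size v p` the larger absolute value of the two coefficients, Gauss's lemma gives
`∏ size ≤ 1`, and every determinant is at most the product of the two sizes. So the discriminant
times a cross ratio is integral, and outside the discriminant all the inequalities are equalities.
-/

set_option autoImplicit false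

noncomputable section

namespace FA.EffectiveBinaryForms

open BirchMerriman Polynomial Finset NumberField IsDedekindDomain

section AbsoluteValue

variable {K : Type*} [Field K] {n : ℕ} {v : AbsoluteValue K ℝ}

/-- The larger absolute value of the two coefficients. -/
def size (v : AbsoluteValue K ℝ) (p : K × K) : ℝ := max (v p.1) (v p.2)

theorem size_nonneg (p : K × K) : 0 ≤ size v p := le_max_of_le_left (v.nonneg _)

theorem size_smul (w : K) (p : K × K) : size v (w • p) = v w * size v p := by
  simp only [size, Prod.smul_fst, Prod.smul_snd, smul_eq_mul, map_mul]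
  rw [mul_max_of_nonneg _ _ (v.nonneg w)]

theorem gaussNorm_linear (p : K × K) : (C p.1 * X + C p.2).gaussNorm v 1 = size v p := by
  have h1 : (C p.1 * X + C p.2).coeff 1 = p.1 := by simp
  have h0 : (C p.1 * X + C p.2).coeff 0 = p.2 := by simp
  refine le_antisymm ?_ (max_le ?_ ?_)
  · obtain ⟨i, hi⟩ := (C p.1 * X + C p.2).exists_eq_gaussNorm v 1
    rw [hi, one_pow, mul_one]
    rcases i with _ | _ | i
    · rw [h0]; exact le_max_right _ _
    · rw [h1]; exact le_max_left _ _
    · rw [coeff_eq_zero_of_natDegree_lt (natDegree_linear_le.trans_lt (by omega)), map_zero]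
      exact size_nonneg p
  · have h := (C p.1 * X + C p.2).le_gaussNorm v zero_le_one 1
    rwa [h1, one_pow, mul_one] at h
  · have h := (C p.1 * X + C p.2).le_gaussNorm v zero_le_one 0
    rwa [h0, one_pow, mul_one] at h

/-- **Gauss's lemma**: the sizes of the factors of an integral form. -/
theorem prod_size_le (hna : IsNonarchimedean v) {g : ℤ[X]} {l : Fin n → K × K}
    (hl : Splitting g l) : ∏ i, size v (l i) ≤ 1 := by
  let N : K[X] →* ℝ :=
    { toFun := fun f => f.gaussNorm v 1
      map_one' := by rw [← C_1, gaussNorm_C, map_one]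
      map_mul' := gaussNorm_mul hna one_pos }
  have h : N (g.map (Int.castRingHom K)) = ∏ i, size v (l i) := by
    rw [show g.map (Int.castRingHom K) = _ from hl, map_prod]
    exact prod_congr rfl fun i _ => gaussNorm_linear (l i)
  rw [← h]
  obtain ⟨i, hi⟩ := (g.map (Int.castRingHom K)).exists_eq_gaussNorm v 1
  show (g.map (Int.castRingHom K)).gaussNorm v 1 ≤ 1
  rw [hi, one_pow, mul_one, coeff_map, eq_intCast]
  exact hna.apply_intCast_le_one

theorem abv_cross_le (hna : IsNonarchimedean v) (p r : K × K) :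
    v (cross p r) ≤ size v p * size v r := by
  have h := hna (p.1 * r.2) (-(r.1 * p.2))
  rw [map_neg_eq_map, map_mul, map_mul, ← sub_eq_add_neg] at h
  refine h.trans (max_le (mul_le_mul (le_max_left _ _) (le_max_right _ _) (v.nonneg _)
    (size_nonneg p)) ?_)
  rw [mul_comm (size v p)]
  exact mul_le_mul (le_max_left _ _) (le_max_right _ _) (v.nonneg _) (size_nonneg r)

theorem prod_offDiag_eq {R : Type*} [CommMonoid R] (f : Fin n → Fin n → R) :
    ∏ p ∈ univ.offDiag, f p.1 p.2 = ∏ i, ∏ j ∈ univ.erase i, f i j :=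
  prod_finset_product' _ univ (fun i => univ.erase i) fun p => by simp [eq_comm]

theorem prod_pairs {R : Type*} [CommMonoid R] (w : Fin n → R) :
    ∏ p ∈ (univ : Finset (Fin n)).offDiag, w p.1 * w p.2 = (∏ i, w i) ^ (2 * (n - 1)) := by
  rw [prod_offDiag_eq (fun i j => w i * w j)]
  simp only [prod_mul_distrib, prod_const, card_erase_of_mem (mem_univ _), card_univ,
    Fintype.card_fin, prod_pow]
  rw [prod_comm' (t' := univ) (s' := fun j => univ.erase j) (fun x y => by simp [eq_comm])]
  simp only [prod_const, card_erase_of_mem (mem_univ _), card_univ, Fintype.card_fin, prod_pow]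
  rw [← pow_add]
  congr 1
  omega

/-- The cross ratio of four linear forms. -/
def ratio (l : Fin n → K × K) (i j k m : Fin n) : K :=
  cross (l i) (l j) * cross (l k) (l m) / (cross (l i) (l k) * cross (l j) (l m))

/-- **The discriminant times a cross ratio is integral at `v`.** -/
theorem abv_crossProd_mul_ratio_le (hna : IsNonarchimedean v) {g : ℤ[X]} {l : Fin n → K × K}
    (hl : Splitting g l) (h0 : crossProd l ≠ 0) {i j k m : Fin n} (hij : i ≠ j) (hik : i ≠ k)
    (hjm : j ≠ m) : v (crossProd l * ratio l i j k m) ≤ 1 := by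
  classical
  set F : Fin n × Fin n → K := fun p => cross (l p.1) (l p.2)
  set G : Fin n × Fin n → ℝ := fun p => size v (l p.1) * size v (l p.2)
  have h1 : (i, k) ∈ (univ : Finset (Fin n)).offDiag := by simp [hik]
  have h2 : (j, m) ∈ (univ : Finset (Fin n)).offDiag.erase (i, k) := by
    simp [hjm, hij.symm]
  set rest := ((univ : Finset (Fin n)).offDiag.erase (i, k)).erase (j, m)
  have hF : crossProd l = F (i, k) * (F (j, m) * ∏ p ∈ rest, F p) := by
    rw [mul_prod_erase _ _ h2, mul_prod_erase _ _ h1,
      prod_offDiag_eq (fun a b => cross (l a) (l b))]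
    rfl
  have hG : ∏ p ∈ (univ : Finset (Fin n)).offDiag, G p = G (i, k) * (G (j, m) * ∏ p ∈ rest, G p) :=
    by rw [mul_prod_erase _ _ h2, mul_prod_erase _ _ h1]
  have hne := cross_ne_zero_of_crossProd h0 hik
  have hne' := cross_ne_zero_of_crossProd h0 hjm
  have e : crossProd l * ratio l i j k m =
      F (i, j) * F (k, m) * ∏ p ∈ rest, F p := by
    rw [hF, ratio]
    simp only [F]
    field_simp
  rw [e, map_mul, map_mul, map_prod]
  refine (mul_le_mul (mul_le_mul (abv_cross_le hna _ _) (abv_cross_le hna _ _) (v.nonneg _)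
    (mul_nonneg (size_nonneg _) (size_nonneg _)))
    (prod_le_prod (fun p _ => v.nonneg _) fun p _ => abv_cross_le hna _ _)
    (prod_nonneg fun p _ => v.nonneg _)
    (mul_nonneg (mul_nonneg (size_nonneg _) (size_nonneg _))
      (mul_nonneg (size_nonneg _) (size_nonneg _)))).trans ?_
  calc _ = G (i, k) * (G (j, m) * ∏ p ∈ rest, G p) := by simp only [G]; ring
    _ = (∏ i, size v (l i)) ^ (2 * (n - 1)) := by rw [← hG, prod_pairs fun i => size v (l i)]
    _ ≤ 1 := pow_le_one₀ (prod_nonneg fun i _ => size_nonneg _) (prod_size_le hna hl)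

/-- **Where the discriminant is a unit** every determinant is the product of the sizes. -/
theorem abv_cross_eq (hna : IsNonarchimedean v) {g : ℤ[X]} {l : Fin n → K × K}
    (hl : Splitting g l) (h1 : v (crossProd l) = 1) {i j : Fin n} (hij : i ≠ j) :
    v (cross (l i) (l j)) = size v (l i) * size v (l j) := by
  classical
  refine le_antisymm (abv_cross_le hna _ _) (not_lt.1 fun hlt => ?_)
  have h0 : crossProd l ≠ 0 := fun h => by rw [h, map_zero] at h1; norm_num at h1
  have h : ∏ p ∈ (univ : Finset (Fin n)).offDiag, v (cross (l p.1) (l p.2)) <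
      ∏ p ∈ (univ : Finset (Fin n)).offDiag, size v (l p.1) * size v (l p.2) :=
    prod_lt_prod (fun p hp => v.pos (cross_ne_zero_of_crossProd h0 (mem_offDiag.1 hp).2.2))
      (fun p _ => abv_cross_le hna _ _) ⟨(i, j), by simp [hij], hlt⟩
  rw [prod_pairs fun i => size v (l i), ← map_prod,
    prod_offDiag_eq (fun a b => cross (l a) (l b))] at h
  exact absurd ((h1 ▸ h).trans_le (pow_le_one₀ (prod_nonneg fun i _ => size_nonneg _)
    (prod_size_le hna hl))) (lt_irrefl 1)

theorem ratio_mul_ratio {l : Fin n → K × K} (h0 : crossProd l ≠ 0) {i j k m : Fin n}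
    (hij : i ≠ j) (hik : i ≠ k) (hjm : j ≠ m) (hkm : k ≠ m) :
    ratio l i j k m * ratio l i k j m = 1 := by
  have := cross_ne_zero_of_crossProd h0 hij
  have := cross_ne_zero_of_crossProd h0 hik
  have := cross_ne_zero_of_crossProd h0 hjm
  have := cross_ne_zero_of_crossProd h0 hkm
  simp only [ratio]
  field_simp

/-- Plücker's relation. -/
theorem ratio_add_ratio {l : Fin n → K × K} (h0 : crossProd l ≠ 0) {i j k m : Fin n}
    (hik : i ≠ k) (hjm : j ≠ m) : ratio l i j k m + ratio l i m k j = 1 := by
  have h1 := cross_ne_zero_of_crossProd h0 hik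
  have h2 := cross_ne_zero_of_crossProd h0 hjm
  rw [ratio, ratio, cross_comm (l m) (l j), mul_neg, div_neg, ← sub_eq_add_neg, ← sub_div,
    div_eq_one_iff_eq (mul_ne_zero h1 h2)]
  simp only [cross]
  ring

end AbsoluteValue

variable {K : Type*} [Field K] [NumberField K]

/-- An element integral at every finite place is an algebraic integer. -/
theorem exists_integer {x : K}
    (h : ∀ v : HeightOneSpectrum (𝓞 K), HeightOneSpectrum.adicAbv K v x ≤ 1) :
    ∃ y : 𝓞 K, (y : K) = x := by
  obtain ⟨y, hy⟩ := HeightOneSpectrum.mem_integers_of_valuation_le_one K x fun v => by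
    have h1 := h v
    rw [HeightOneSpectrum.adicAbv_def] at h1
    exact (WithZeroMulInt.toNNReal_le_one_iff (HeightOneSpectrum.one_lt_absNorm_nnreal v)).1
      (by exact_mod_cast h1)
  exact ⟨y, hy⟩

/-- Coprime coordinates at `v` for a point of the projective line. -/
theorem exists_coords (v : HeightOneSpectrum (𝓞 K)) (p : K × K) :
    ∃ (c : K) (x y : 𝓞 K), (x ∉ v.asIdeal ∨ y ∉ v.asIdeal) ∧ p = c • ((x : K), (y : K)) := by
  rcases eq_or_ne p.1 0 with h1 | h1
  · exact ⟨p.2, 0, 1, Or.inr (mt (Ideal.eq_top_iff_one _).2 v.isPrime.ne_top),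
      Prod.ext (by simp [h1]) (by simp)⟩
  obtain ⟨a, d, h | h⟩ := v.exists_primeCompl_mul_eq_or_mul_eq (p.2 / p.1)
  · change p.2 / p.1 * ((d : 𝓞 K) : K) = (a : K) at h
    have hd : ((d : 𝓞 K) : K) ≠ 0 := RingOfIntegers.coe_ne_zero_iff.2 fun e => d.2 (e ▸ zero_mem _)
    refine ⟨p.1 / (d : 𝓞 K), d, a, Or.inl d.2, Prod.ext ?_ ?_⟩
    · simp only [Prod.smul_fst, smul_eq_mul]
      exact (div_mul_cancel₀ _ hd).symm
    · simp only [Prod.smul_snd, smul_eq_mul]
      rw [← h]
      field_simp
  · change p.2 / p.1 * (a : K) = ((d : 𝓞 K) : K) at h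
    have hd : ((d : 𝓞 K) : K) ≠ 0 := RingOfIntegers.coe_ne_zero_iff.2 fun e => d.2 (e ▸ zero_mem _)
    have ha : (a : K) ≠ 0 := fun e => hd (by rw [← h, e, mul_zero])
    have hp2 : p.2 ≠ 0 := fun e => hd (by rw [← h, e, zero_div, zero_mul])
    refine ⟨p.1 / (a : K), a, d, Or.inr d.2, Prod.ext ?_ ?_⟩
    · simp only [Prod.smul_fst, smul_eq_mul]
      exact (div_mul_cancel₀ _ ha).symm
    · simp only [Prod.smul_snd, smul_eq_mul]
      rw [← h]
      field_simp

theorem size_coords {v : HeightOneSpectrum (𝓞 K)} {x y : 𝓞 K}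
    (h : x ∉ v.asIdeal ∨ y ∉ v.asIdeal) :
    size (HeightOneSpectrum.adicAbv K v) ((x : K), (y : K)) = 1 := by
  have hle : ∀ z : 𝓞 K, HeightOneSpectrum.adicAbv K v (z : K) ≤ 1 := fun z => by
    rw [← FinitePlace.norm_embedding]
    exact FinitePlace.norm_le_one K v z
  have heq : ∀ z : 𝓞 K, z ∉ v.asIdeal → HeightOneSpectrum.adicAbv K v (z : K) = 1 := fun z hz => by
    rw [← FinitePlace.norm_embedding]
    exact (FinitePlace.norm_eq_one_iff_notMem K v z).2 hz
  refine le_antisymm (max_le (hle x) (hle y)) ?_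
  rcases h with h | h
  · exact (heq x h).ge.trans (le_max_left _ _)
  · exact (heq y h).ge.trans (le_max_right _ _)

end FA.EffectiveBinaryForms

end
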